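import Fermat.Agent.Lib.RayL74.Main

/-!
# `RayL74` (helper74): `L`-series of characters of generalised ideal class groups

Let `𝔪` be a nonzero ideal of `𝓞 K`, `G` a finite commutative group and
`φ : (Ideal (𝓞 K))⁰ →* G` a homomorphism such that
* every element of `G` is `φ I` for some `I` coprime to `𝔪`;
* `φ ((x)) = 1` for every `x ≡ 1 mod 𝔪`.
Then for every character `χ ≠ 1` of `G` the `L`-series
`∑_{I coprime to 𝔪} χ(φ I) N(I)^(-s)` extends continuously to `[1, 2]`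
(`exists_continuousOn_charL`), hence is bounded on `(1, 2]` (`exists_bound_charL`).
-/

set_option linter.unusedSectionVars false

namespace Fermat.Agent.Lib.RayL74

open NumberField Fermat.Agent.S14.H74
open scoped nonZeroDivisors Classical

variable {K : Type*} [Field K] [NumberField K]

/-- The ray weight attached to a character `χ` of a generalised ideal class group `φ`
modulo `𝔪`: `χ ∘ φ` on the ideals coprime to `𝔪`, zero elsewhere. -/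
noncomputable def charWeight {G : Type*} [CommGroup G] (𝔪 : Ideal (𝓞 K))
    (φ : (Ideal (𝓞 K))⁰ →* G) (χ : G →* ℂˣ) (I : Ideal (𝓞 K)) : ℂ :=
  if h : I ≠ ⊥ ∧ I ⊔ 𝔪 = ⊤ then ((χ (φ ⟨I, mem_nonZeroDivisors_of_ne_zero h.1⟩) : ℂˣ) : ℂ)
  else 0

theorem charWeight_coe {G : Type*} [CommGroup G] (𝔪 : Ideal (𝓞 K))
    (φ : (Ideal (𝓞 K))⁰ →* G) (χ : G →* ℂˣ) (I : (Ideal (𝓞 K))⁰) :
    charWeight 𝔪 φ χ (I : Ideal (𝓞 K)) =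
      if (I : Ideal (𝓞 K)) ⊔ 𝔪 = ⊤ then ((χ (φ I) : ℂˣ) : ℂ) else 0 := by
  unfold charWeight
  by_cases hc : (I : Ideal (𝓞 K)) ⊔ 𝔪 = ⊤
  · rw [dif_pos ⟨nonZeroDivisors.coe_ne_zero I, hc⟩, if_pos hc]
  · rw [dif_neg (fun h ↦ hc h.2), if_neg hc]

theorem charWeight_of_coprime {G : Type*} [CommGroup G] (𝔪 : Ideal (𝓞 K))
    (φ : (Ideal (𝓞 K))⁰ →* G) (χ : G →* ℂˣ) (I : (Ideal (𝓞 K))⁰)
    (hc : (I : Ideal (𝓞 K)) ⊔ 𝔪 = ⊤) :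
    charWeight 𝔪 φ χ (I : Ideal (𝓞 K)) = ((χ (φ I) : ℂˣ) : ℂ) := by
  rw [charWeight_coe, if_pos hc]

theorem charWeight_of_not_coprime {G : Type*} [CommGroup G] (𝔪 : Ideal (𝓞 K))
    (φ : (Ideal (𝓞 K))⁰ →* G) (χ : G →* ℂˣ) (I : Ideal (𝓞 K))
    (hc : ¬ I ⊔ 𝔪 = ⊤) : charWeight 𝔪 φ χ I = 0 := by
  unfold charWeight
  rw [dif_neg (fun h ↦ hc h.2)]

theorem norm_char_eq_one {G : Type*} [CommGroup G] [Finite G] (χ : G →* ℂˣ) (g : G) :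
    ‖((χ g : ℂˣ) : ℂ)‖ = 1 := by
  have h1 : ((χ g : ℂˣ) : ℂ) ^ (Nat.card G) = 1 := by
    rw [← Units.val_pow_eq_pow_val, ← map_pow, pow_card_eq_one', map_one, Units.val_one]
  exact Complex.norm_eq_one_of_pow_eq_one h1 Nat.card_pos.ne'

theorem mul_sup_eq_top_iff {I J 𝔪 : Ideal (𝓞 K)} :
    I * J ⊔ 𝔪 = ⊤ ↔ I ⊔ 𝔪 = ⊤ ∧ J ⊔ 𝔪 = ⊤ := by
  rw [← Ideal.isCoprime_iff_sup_eq, ← Ideal.isCoprime_iff_sup_eq, ← Ideal.isCoprime_iff_sup_eq]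
  exact IsCoprime.mul_left_iff

/-- The weight `χ ∘ φ` is a ray weight. -/
theorem isRayWeight_charWeight {G : Type*} [CommGroup G] [Finite G] (𝔪 : Ideal (𝓞 K))
    (h𝔪 : 𝔪 ≠ ⊥) (φ : (Ideal (𝓞 K))⁰ →* G)
    (hray : ∀ (I : (Ideal (𝓞 K))⁰) (x : 𝓞 K), (I : Ideal (𝓞 K)) = Ideal.span {x} →
      x - 1 ∈ 𝔪 → φ I = 1)
    (χ : G →* ℂˣ) : IsRayWeight 𝔪 (charWeight 𝔪 φ χ) where
  ne_bot := h𝔪
  map_mul I J hI hJ := by
    let I' : (Ideal (𝓞 K))⁰ := ⟨I, mem_nonZeroDivisors_of_ne_zero hI⟩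
    let J' : (Ideal (𝓞 K))⁰ := ⟨J, mem_nonZeroDivisors_of_ne_zero hJ⟩
    have e : I * J = ((I' * J' : (Ideal (𝓞 K))⁰) : Ideal (𝓞 K)) := rfl
    have eI : I = (I' : Ideal (𝓞 K)) := rfl
    have eJ : J = (J' : Ideal (𝓞 K)) := rfl
    by_cases hc : I * J ⊔ 𝔪 = ⊤
    · obtain ⟨hcI, hcJ⟩ := mul_sup_eq_top_iff.mp hc
      rw [e, charWeight_of_coprime 𝔪 φ χ (I' * J') hc, eI,
        charWeight_of_coprime 𝔪 φ χ I' hcI, eJ, charWeight_of_coprime 𝔪 φ χ J' hcJ,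
        map_mul, map_mul, Units.val_mul]
    · rw [charWeight_of_not_coprime 𝔪 φ χ _ hc]
      by_cases hcI : I ⊔ 𝔪 = ⊤
      · have hcJ : ¬ J ⊔ 𝔪 = ⊤ := fun hcJ ↦ hc (mul_sup_eq_top_iff.mpr ⟨hcI, hcJ⟩)
        rw [charWeight_of_not_coprime 𝔪 φ χ _ hcJ, mul_zero]
      · rw [charWeight_of_not_coprime 𝔪 φ χ _ hcI, zero_mul]
  norm_le I hI := by
    let I' : (Ideal (𝓞 K))⁰ := ⟨I, mem_nonZeroDivisors_of_ne_zero hI⟩
    have eI : I = (I' : Ideal (𝓞 K)) := rfl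
    by_cases hc : I ⊔ 𝔪 = ⊤
    · rw [eI, charWeight_of_coprime 𝔪 φ χ I' hc, norm_char_eq_one]
    · rw [charWeight_of_not_coprime 𝔪 φ χ _ hc, norm_zero]
      exact zero_le_one
  ne_zero_iff I hI := by
    let I' : (Ideal (𝓞 K))⁰ := ⟨I, mem_nonZeroDivisors_of_ne_zero hI⟩
    have eI : I = (I' : Ideal (𝓞 K)) := rfl
    constructor
    · intro h
      by_contra hc
      exact h (charWeight_of_not_coprime 𝔪 φ χ _ hc)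
    · intro hc
      rw [eI, charWeight_of_coprime 𝔪 φ χ I' hc]
      exact Units.ne_zero _
  ray x hx hx1 := by
    have hI : Ideal.span {x} ≠ ⊥ := IsRayWeight.span_ne_bot hx
    let I' : (Ideal (𝓞 K))⁰ := ⟨Ideal.span {x}, mem_nonZeroDivisors_of_ne_zero hI⟩
    have eI : Ideal.span {x} = (I' : Ideal (𝓞 K)) := rfl
    have hc : Ideal.span {x} ⊔ 𝔪 = ⊤ := by
      rw [Ideal.eq_top_iff_one]
      have e : (1 : 𝓞 K) = x + -(x - 1) := by ring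
      rw [e]
      exact Submodule.add_mem_sup (Ideal.mem_span_singleton_self x) (𝔪.neg_mem hx1)
    rw [eI, charWeight_of_coprime 𝔪 φ χ I' hc, hray I' x rfl hx1, map_one, Units.val_one]

/-- The `L`-series of a character `χ` of the generalised ideal class group `φ` modulo `𝔪`. -/
noncomputable def charL {G : Type*} [CommGroup G] (𝔪 : Ideal (𝓞 K))
    (φ : (Ideal (𝓞 K))⁰ →* G) (χ : G →* ℂˣ) (s : ℝ) : ℂ :=
  ∑' I : (Ideal (𝓞 K))⁰, (if (I : Ideal (𝓞 K)) ⊔ 𝔪 = ⊤ then ((χ (φ I) : ℂˣ) : ℂ) else 0) *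
    (((Ideal.absNorm (I : Ideal (𝓞 K)) : ℝ) ^ (-s) : ℝ) : ℂ)

theorem charL_eq_rayL {G : Type*} [CommGroup G] (𝔪 : Ideal (𝓞 K))
    (φ : (Ideal (𝓞 K))⁰ →* G) (χ : G →* ℂˣ) (s : ℝ) :
    charL 𝔪 φ χ s = rayL (charWeight 𝔪 φ χ) s := by
  unfold charL rayL rayTerm
  refine tsum_congr fun I ↦ ?_
  rw [charWeight_coe]

/-- **RAY-N1** for characters, continuous form. -/
theorem exists_continuousOn_charL {G : Type*} [CommGroup G] [Finite G] (𝔪 : Ideal (𝓞 K))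
    (h𝔪 : 𝔪 ≠ ⊥) (φ : (Ideal (𝓞 K))⁰ →* G)
    (hsurj : ∀ g : G, ∃ I : (Ideal (𝓞 K))⁰, (I : Ideal (𝓞 K)) ⊔ 𝔪 = ⊤ ∧ φ I = g)
    (hray : ∀ (I : (Ideal (𝓞 K))⁰) (x : 𝓞 K), (I : Ideal (𝓞 K)) = Ideal.span {x} →
      x - 1 ∈ 𝔪 → φ I = 1)
    (χ : G →* ℂˣ) (hχ : χ ≠ 1) :
    ∃ F : ℝ → ℂ, ContinuousOn F (Set.Icc 1 2) ∧
      ∀ s : ℝ, 1 < s → s ≤ 2 → F s = charL 𝔪 φ χ s := by
  have hg : ∃ g : G, χ g ≠ 1 := by
    by_contra hno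
    refine hχ (MonoidHom.ext fun g ↦ ?_)
    rw [MonoidHom.one_apply]
    by_contra hg
    exact hno ⟨g, hg⟩
  obtain ⟨g, hg⟩ := hg
  obtain ⟨I₀, hI₀c, hI₀g⟩ := hsurj g
  have hW := isRayWeight_charWeight 𝔪 h𝔪 φ hray χ
  have hval : charWeight 𝔪 φ χ (I₀ : Ideal (𝓞 K)) = ((χ g : ℂˣ) : ℂ) := by
    rw [charWeight_of_coprime 𝔪 φ χ I₀ hI₀c, hI₀g]
  obtain ⟨F, hFc, hF⟩ := exists_continuousOn_rayL hW (I₀ : Ideal (𝓞 K))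
    (nonZeroDivisors.coe_ne_zero I₀) (by rw [hval]; exact Units.ne_zero _) (by
      rw [hval]
      intro h1
      exact hg (Units.ext h1))
  exact ⟨F, hFc, fun s hs1 hs2 ↦ by rw [hF s hs1 hs2, charL_eq_rayL]⟩

/-- **RAY-N1** for characters, bounded form. -/
theorem exists_bound_charL {G : Type*} [CommGroup G] [Finite G] (𝔪 : Ideal (𝓞 K))
    (h𝔪 : 𝔪 ≠ ⊥) (φ : (Ideal (𝓞 K))⁰ →* G)
    (hsurj : ∀ g : G, ∃ I : (Ideal (𝓞 K))⁰, (I : Ideal (𝓞 K)) ⊔ 𝔪 = ⊤ ∧ φ I = g)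
    (hray : ∀ (I : (Ideal (𝓞 K))⁰) (x : 𝓞 K), (I : Ideal (𝓞 K)) = Ideal.span {x} →
      x - 1 ∈ 𝔪 → φ I = 1)
    (χ : G →* ℂˣ) (hχ : χ ≠ 1) :
    ∃ B : ℝ, ∀ s : ℝ, 1 < s → s ≤ 2 → ‖charL 𝔪 φ χ s‖ ≤ B := by
  obtain ⟨F, hFc, hF⟩ := exists_continuousOn_charL 𝔪 h𝔪 φ hsurj hray χ hχ
  obtain ⟨B, hB⟩ := isCompact_Icc.exists_bound_of_continuousOn hFc
  exact ⟨B, fun s hs1 hs2 ↦ by rw [← hF s hs1 hs2]; exact hB s ⟨hs1.le, hs2⟩⟩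

/-- Summability of the terms of `charL` for `s > 1`. -/
theorem summable_charL_term {G : Type*} [CommGroup G] [Finite G] (𝔪 : Ideal (𝓞 K))
    (φ : (Ideal (𝓞 K))⁰ →* G) (χ : G →* ℂˣ) {s : ℝ} (hs : 1 < s) :
    Summable fun I : (Ideal (𝓞 K))⁰ ↦
      (if (I : Ideal (𝓞 K)) ⊔ 𝔪 = ⊤ then ((χ (φ I) : ℂˣ) : ℂ) else 0) *
        (((Ideal.absNorm (I : Ideal (𝓞 K)) : ℝ) ^ (-s) : ℝ) : ℂ) := by
  refine Summable.of_norm_bounded (idealZeta_summable K hs) fun I ↦ ?_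
  rw [norm_mul, Complex.norm_real, Real.norm_of_nonneg (absNorm_rpow_nonneg K s I)]
  refine mul_le_of_le_one_left (absNorm_rpow_nonneg K s I) ?_
  split_ifs
  · exact (norm_char_eq_one χ _).le
  · rw [norm_zero]
    exact zero_le_one

end Fermat.Agent.Lib.RayL74
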