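import Fermat.Agent.Lib.NormL.Index

/-!
# `RayL74` (helper74): sums over ideals with a periodic weight

For a weight `wt : 𝓞 K → ℂ` which is periodic modulo a nonzero ideal `M` and bounded by `1`, and
nonzero ideals `A`, `P` with `A` and `A * P` coprime to `M`, the function
`N(P) * ∑_{x ∈ A P} wt(x) FS_s(x) - ∑_{x ∈ A} wt(x) FS_s(x)` extends continuously to `[1, 2]`.
This generalises block KEY of `Lib/NormL` (where `wt = χ ∘ N` and `M = (m)`).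
-/

namespace Fermat.Agent.Lib.RayL74

open NumberField Fermat.Agent.S14.H74 Fermat.Agent.Lib.NormL
open scoped nonZeroDivisors Classical

variable {K : Type*} [Field K] [NumberField K]

/-- The sum over the elements `x` of the ideal `A` of `wt(x) FS_s(x)`. -/
noncomputable def elemSumW (wt : 𝓞 K → ℂ) (A : Ideal (𝓞 K)) (s : ℝ) : ℂ :=
  ∑' x : A, wt (x : 𝓞 K) * ((FS K s (x : 𝓞 K) : ℝ) : ℂ)

theorem GS_false_eq (s : ℝ) (x : 𝓞 K) : GS K false s x = FS K s x := by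
  unfold GS
  simp

theorem summable_wt_mul_FS {wt : 𝓞 K → ℂ} (hbd : ∀ x, ‖wt x‖ ≤ 1) {s : ℝ} (hs : 1 < s) :
    Summable fun x : 𝓞 K ↦ wt x * ((FS K s x : ℝ) : ℂ) :=
  Summable.of_norm_bounded (summable_FS (K := K) hs) fun x ↦ by
    rw [norm_mul, Complex.norm_real, Real.norm_of_nonneg (FS_nonneg s x)]
    exact mul_le_of_le_one_left (FS_nonneg s x) (hbd x)

/-- Decomposition of `elemSumW` along the residues modulo `M`. -/
theorem elemSumW_eq_sum_residues {wt : 𝓞 K → ℂ} (hbd : ∀ x, ‖wt x‖ ≤ 1)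
    (B Λ M : Ideal (𝓞 K)) (hper : ∀ x x' : 𝓞 K, x - x' ∈ M → wt x = wt x')
    [Fintype (𝓞 K ⧸ M)]
    (hB : B ⊔ M = ⊤) (h1 : Λ ≤ B) (h2 : Λ ≤ M) (h3 : B ⊓ M ≤ Λ) :
    ∃ r : (𝓞 K ⧸ M) → 𝓞 K, ∀ s : ℝ, 1 < s →
      elemSumW wt B s = ∑ ρ : 𝓞 K ⧸ M,
        wt (Quotient.out ρ) * ((∑' l : Λ, GS K false s (r ρ + (l : 𝓞 K)) : ℝ) : ℂ) := by
  have hex0 : ∀ ρ : 𝓞 K ⧸ M, ∃ b : 𝓞 K, b ∈ B ∧ b - Quotient.out ρ ∈ M := by
    intro ρ
    have : Quotient.out ρ ∈ B ⊔ M := by rw [hB]; trivial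
    obtain ⟨b, hb, c, hc, hbc⟩ := Submodule.mem_sup.mp this
    refine ⟨b, hb, ?_⟩
    have : b - Quotient.out ρ = -c := by rw [← hbc]; ring
    rw [this]
    exact M.neg_mem hc
  choose r hrB hrM using hex0
  have hout : ∀ x : 𝓞 K, x - Quotient.out (Ideal.Quotient.mk M x) ∈ M := by
    intro x
    rw [← Ideal.Quotient.eq, Ideal.Quotient.mk_out]
  have hex : ∀ x ∈ B, ∃ ρ, x - r ρ ∈ Λ := by
    intro x hx
    refine ⟨Ideal.Quotient.mk M x, h3 ⟨B.sub_mem hx (hrB _), ?_⟩⟩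
    have e : x - r (Ideal.Quotient.mk M x) =
        (x - Quotient.out (Ideal.Quotient.mk M x)) -
          (r (Ideal.Quotient.mk M x) - Quotient.out (Ideal.Quotient.mk M x)) := by ring
    rw [e]
    exact M.sub_mem (hout x) (hrM _)
  have hinj : ∀ ρ ρ', r ρ - r ρ' ∈ Λ → ρ = ρ' := by
    intro ρ ρ' h
    have hm : Quotient.out ρ - Quotient.out ρ' ∈ M := by
      have e : Quotient.out ρ - Quotient.out ρ' =
          (r ρ - r ρ') - (r ρ - Quotient.out ρ) + (r ρ' - Quotient.out ρ') := by ring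
      rw [e]
      exact M.add_mem (M.sub_mem (h2 h) (hrM ρ)) (hrM ρ')
    rw [← Ideal.Quotient.eq, Ideal.Quotient.mk_out, Ideal.Quotient.mk_out] at hm
    exact hm
  refine ⟨r, fun s hs ↦ ?_⟩
  have hF := summable_wt_mul_FS (K := K) hbd hs
  have hgen := tsum_ideal_eq_sum_cosets B Λ h1 r hrB hex hinj
    (fun x : 𝓞 K ↦ wt x * ((FS K s x : ℝ) : ℂ)) hF
  have e0 : elemSumW wt B s = ∑' x : B, wt (x : 𝓞 K) * ((FS K s (x : 𝓞 K) : ℝ) : ℂ) := rfl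
  rw [e0, hgen]
  refine Finset.sum_congr rfl fun ρ _ ↦ ?_
  rw [Complex.ofReal_tsum, ← tsum_mul_left]
  refine tsum_congr fun l ↦ ?_
  rw [GS_false_eq]
  congr 1
  apply hper
  have e : r ρ + (l : 𝓞 K) - Quotient.out ρ = (r ρ - Quotient.out ρ) + (l : 𝓞 K) := by ring
  rw [e]
  exact M.add_mem (hrM ρ) (h2 l.2)

/-- **KEY**: for nonzero ideals `A`, `P` coprime to `M`, the function
`N(P) * elemSumW (A * P) - elemSumW A` extends continuously to `[1, 2]`. -/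
theorem exists_continuousOn_elemSumW_sub {wt : 𝓞 K → ℂ} (hbd : ∀ x, ‖wt x‖ ≤ 1)
    (M : Ideal (𝓞 K)) (hM0 : M ≠ ⊥) (hper : ∀ x x' : 𝓞 K, x - x' ∈ M → wt x = wt x')
    (A P : Ideal (𝓞 K)) (hA0 : A ≠ ⊥) (hP0 : P ≠ ⊥) (hAM : A ⊔ M = ⊤) (hPM : P ⊔ M = ⊤) :
    ∃ Δ : ℝ → ℂ, ContinuousOn Δ (Set.Icc 1 2) ∧ ∀ s : ℝ, 1 < s → s ≤ 2 →
      (Ideal.absNorm P : ℂ) * elemSumW wt (A * P) s - elemSumW wt A s = Δ s := by
  have : Finite (𝓞 K ⧸ M) := Ideal.finiteQuotientOfFreeOfNeBot _ hM0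
  let _ : Fintype (𝓞 K ⧸ M) := Fintype.ofFinite _
  have hAPM : A * P ⊔ M = ⊤ := by
    have h1 : IsCoprime A M := (Ideal.isCoprime_iff_sup_eq).mpr hAM
    have h2 : IsCoprime P M := (Ideal.isCoprime_iff_sup_eq).mpr hPM
    exact (Ideal.isCoprime_iff_sup_eq).mp (IsCoprime.mul_left h1 h2)
  set Λ : Ideal (𝓞 K) := A * M with hΛ
  have hΛ0 : Λ ≠ ⊥ := mul_ne_zero hA0 hM0
  have hΛP : Λ * P = A * P * M := by
    rw [hΛ]
    ring
  obtain ⟨r, hr⟩ := elemSumW_eq_sum_residues hbd A Λ M hper hAM Ideal.mul_le_left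
    Ideal.mul_le_right (by
      rw [← Ideal.mul_eq_inf_of_isCoprime ((Ideal.isCoprime_iff_sup_eq).mpr hAM)])
  obtain ⟨r', hr'⟩ := elemSumW_eq_sum_residues hbd (A * P) (Λ * P) M hper hAPM
    (by rw [hΛP]; exact Ideal.mul_le_left)
    (by rw [hΛP]; exact Ideal.mul_le_right) (by
      rw [hΛP, ← Ideal.mul_eq_inf_of_isCoprime ((Ideal.isCoprime_iff_sup_eq).mpr hAPM)])
  choose D hDc hD using fun ρ : 𝓞 K ⧸ M ↦
    exists_continuousOn_index_sub (K := K) false Λ P hΛ0 hP0 (r ρ) (r' ρ)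
  refine ⟨fun s ↦ ∑ ρ : 𝓞 K ⧸ M, wt (Quotient.out ρ) * ((D ρ s : ℝ) : ℂ), ?_,
    fun s hs1 hs2 ↦ ?_⟩
  · refine continuousOn_finsetSum _ fun ρ _ ↦ ?_
    exact continuousOn_const.mul (Complex.continuous_ofReal.comp_continuousOn (hDc ρ))
  · rw [hr s hs1, hr' s hs1, Finset.mul_sum, ← Finset.sum_sub_distrib]
    refine Finset.sum_congr rfl fun ρ _ ↦ ?_
    rw [← hD ρ s hs1 hs2]
    push_cast
    ring

end Fermat.Agent.Lib.RayL74
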