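import Fermat.Agent.Lib.RayL74.Orb
import Fermat.Agent.Lib.NormL.Cop

/-!
# `RayL74` (helper74): `L`-series of ray class characters near `s = 1`

Main theorem `exists_continuousOn_rayL`: if `ψ` is a ray weight modulo `𝔪` (see `IsRayWeight`)
and `ψ(I₀) ∉ {0, 1}` for some nonzero ideal `I₀`, then `s ↦ ∑_I ψ(I) N(I)^(-s)` (sum over the
nonzero ideals of `𝓞 K`) extends to a continuous function on `[1, 2]`; in particular it is
bounded on `(1, 2]` (`exists_bound_rayL`) and has a limit as `s → 1⁺`.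

This is the analytic input ("RAY-N1") of the analytic proof of the second inequality of class
field theory; it generalises `Fermat.Agent.S14.H74.classL_bounded` (characters of the class
group, `𝔪 = ⊤`) and `Fermat.Agent.Lib.NormL.exists_continuousOn_normL` (`ψ = χ ∘ N`).
-/

set_option linter.unusedSectionVars false

namespace Fermat.Agent.Lib.RayL74

open NumberField NumberField.mixedEmbedding Fermat.Agent.S14.H74
open scoped nonZeroDivisors Classical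

variable {K : Type*} [Field K] [NumberField K] {𝔪 : Ideal (𝓞 K)} {ψ : Ideal (𝓞 K) → ℂ}

/-- The denominator `z q^(1-s) - 1` does not vanish on `[1, ∞)`. -/
theorem ray_denominator_ne_zero {q : ℝ} (hq1 : 1 ≤ q) {z : ℂ} (hz : ‖z‖ ≤ 1) (hz1 : z ≠ 1)
    {s : ℝ} (hs : 1 ≤ s) : z * ((q ^ (1 - s) : ℝ) : ℂ) - 1 ≠ 0 := by
  intro h
  have h' : z * ((q ^ (1 - s) : ℝ) : ℂ) = 1 := sub_eq_zero.mp h
  have hq0 : (0 : ℝ) < q := by linarith
  have hle : q ^ (1 - s) ≤ 1 := Real.rpow_le_one_of_one_le_of_nonpos hq1 (by linarith)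
  have hpos : 0 < q ^ (1 - s) := Real.rpow_pos_of_pos hq0 _
  have hn : ‖z‖ * q ^ (1 - s) = 1 := by
    have := congrArg norm h'
    rwa [norm_mul, Complex.norm_real, Real.norm_of_nonneg hpos.le, norm_one] at this
  have ht : q ^ (1 - s) = 1 := by
    apply le_antisymm hle
    calc (1 : ℝ) = ‖z‖ * q ^ (1 - s) := hn.symm
      _ ≤ 1 * q ^ (1 - s) := by gcongr
      _ = q ^ (1 - s) := one_mul _
  rw [ht, Complex.ofReal_one, mul_one] at h'
  exact hz1 h'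

/-- Pure algebra used in the assembly. -/
theorem ray_algebra (a b w x y Q z r c c' ainv winv : ℂ) (ha : a * ainv = 1)
    (hw : w * winv = 1) (hxy : x * y = 1) (hQz : Q * z = r) :
    (Q * (w * (a * x * (b * z) * c')) - w * (a * x * c)) * ainv * y * winv = b * r * c' - c := by
  calc (Q * (w * (a * x * (b * z) * c')) - w * (a * x * c)) * ainv * y * winv
      = (a * ainv) * (w * winv) * (x * y) * (Q * z) * b * c' -
          (a * ainv) * (w * winv) * (x * y) * c := by ring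
    _ = b * r * c' - c := by rw [ha, hw, hxy, hQz]; ring

theorem absNorm_pos_of_ne_bot {I : Ideal (𝓞 K)} (hI : I ≠ ⊥) : 0 < Ideal.absNorm I := by
  rw [Nat.pos_iff_ne_zero, Ne, Ideal.absNorm_eq_zero_iff]
  exact hI

/-- **RAY-N1**, continuous form: the `L`-series of a ray weight `ψ` modulo `𝔪` with
`ψ(I₀) ∉ {0, 1}` for some ideal `I₀` extends continuously to `[1, 2]`. -/
theorem exists_continuousOn_rayL (h : IsRayWeight 𝔪 ψ) (I₀ : Ideal (𝓞 K)) (hI₀ : I₀ ≠ ⊥)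
    (h0 : ψ I₀ ≠ 0) (h1 : ψ I₀ ≠ 1) :
    ∃ F : ℝ → ℂ, ContinuousOn F (Set.Icc 1 2) ∧
      ∀ s : ℝ, 1 < s → s ≤ 2 → F s = rayL ψ s := by
  set q : ℕ := Ideal.absNorm I₀ with hq
  have hq0 : 0 < q := absNorm_pos_of_ne_bot hI₀
  have hq1 : (1 : ℝ) ≤ q := by exact_mod_cast hq0
  have hqpos : (0 : ℝ) < q := by linarith
  have hI₀m : I₀ ⊔ 𝔪 = ⊤ := h.sup_eq_top_of_ne_zero hI₀ h0
  let I₀' : (Ideal (𝓞 K))⁰ := ⟨I₀, mem_nonZeroDivisors_of_ne_zero hI₀⟩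
  -- representatives
  choose J hJC hJm using fun C : ClassGroup (𝓞 K) ↦
    Fermat.Agent.Lib.NormL.Cop.exists_mk0_eq_and_sup_eq_top C⁻¹ h.ne_bot
  have hJ0 : ∀ C, (J C : Ideal (𝓞 K)) ≠ ⊥ := fun C ↦ nonZeroDivisors.coe_ne_zero (J C)
  choose Δ hΔc hΔ using fun C : ClassGroup (𝓞 K) ↦
    exists_continuousOn_elemSumW_sub h.wt_bd 𝔪 h.ne_bot h.wt_per (J C : Ideal (𝓞 K)) I₀
      (hJ0 C) hI₀ (hJm C) hI₀m
  set w : ℂ := (Units.torsionOrder K : ℂ) with hw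
  have hw0 : w ≠ 0 := by
    rw [hw]
    exact_mod_cast (Units.torsionOrder_pos K).ne'
  set nJ : ClassGroup (𝓞 K) → ℕ := fun C ↦ Ideal.absNorm (J C : Ideal (𝓞 K)) with hnJ
  have hnJpos : ∀ C, (0 : ℝ) < nJ C := fun C ↦ by
    have := absNorm_pos_of_ne_bot (hJ0 C)
    exact_mod_cast this
  have hψJ : ∀ C, ψ (J C : Ideal (𝓞 K)) ≠ 0 := fun C ↦
    h.ne_zero_of_sup_eq_top (hJ0 C) (hJm C)
  have hψq : ‖ψ I₀‖ ≤ 1 := h.norm_le I₀ hI₀
  set E : ℝ → ℂ := fun s ↦ ∑ C : ClassGroup (𝓞 K),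
    Δ C s * (ψ (J C : Ideal (𝓞 K)))⁻¹ * ((((nJ C : ℝ) ^ s : ℝ) : ℂ)) / w with hE
  set D : ℝ → ℂ := fun s ↦ ψ I₀ * (((q : ℝ) ^ (1 - s) : ℝ) : ℂ) - 1 with hD
  have hDne : ∀ s ∈ Set.Icc (1 : ℝ) 2, D s ≠ 0 := fun s hs ↦
    ray_denominator_ne_zero hq1 hψq h1 hs.1
  have hDc : ContinuousOn D (Set.Icc 1 2) := by
    apply Continuous.continuousOn
    have : Continuous fun s : ℝ ↦ (q : ℝ) ^ (1 - s) :=
      Real.continuous_const_rpow hqpos.ne' |>.comp (continuous_const.sub continuous_id)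
    exact (continuous_const.mul (Complex.continuous_ofReal.comp this)).sub continuous_const
  have hEc : ContinuousOn E (Set.Icc 1 2) := by
    apply continuousOn_finsetSum
    intro C _
    have h1 : Continuous fun s : ℝ ↦ (((nJ C : ℝ) ^ s : ℝ) : ℂ) :=
      Complex.continuous_ofReal.comp (Real.continuous_const_rpow (hnJpos C).ne')
    exact (((hΔc C).mul continuousOn_const).mul h1.continuousOn).div_const _
  refine ⟨fun s ↦ E s / D s, hEc.div hDc hDne, fun s hs1 hs2 ↦ ?_⟩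
  have hDs : D s ≠ 0 := hDne s ⟨hs1.le, hs2⟩
  rw [div_eq_iff hDs]
  -- the identity `E s = rayL s * D s`
  have key : ∀ C : ClassGroup (𝓞 K),
      Δ C s * (ψ (J C : Ideal (𝓞 K)))⁻¹ * ((((nJ C : ℝ) ^ s : ℝ) : ℂ)) / w =
        ψ I₀ * (((q : ℝ) ^ (1 - s) : ℝ) : ℂ) *
          classW ψ (C * (ClassGroup.mk0 I₀')⁻¹) s - classW ψ C s := by
    intro C
    have e1 := elemSumW_eq_torsionOrder_mul_prinW h (J C : Ideal (𝓞 K)) hs1
    have e2 := elemSumW_eq_torsionOrder_mul_prinW h ((J C : Ideal (𝓞 K)) * I₀) hs1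
    have c1 := prinW_eq_mul_classW h (hJC C) s
    have c2 := prinW_eq_mul_classW h (C := C * (ClassGroup.mk0 I₀')⁻¹) (J := J C * I₀')
      (by rw [map_mul, hJC C, mul_inv_rev, inv_inv, mul_comm]) s
    have hcoe : ((J C * I₀' : (Ideal (𝓞 K))⁰) : Ideal (𝓞 K)) = (J C : Ideal (𝓞 K)) * I₀ := rfl
    rw [hcoe] at c2
    have hd := hΔ C s hs1 hs2
    rw [e1, e2, c1, c2, rayTerm_mul h s (hJ0 C) hI₀] at hd
    have hJs : (((nJ C : ℝ) ^ (-s) : ℝ) : ℂ) * (((nJ C : ℝ) ^ s : ℝ) : ℂ) = 1 := by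
      rw [← Complex.ofReal_mul, ← Real.rpow_add (hnJpos C), neg_add_cancel, Real.rpow_zero]
      simp
    have hqs : ((q : ℕ) : ℂ) * (((q : ℝ) ^ (-s) : ℝ) : ℂ) = (((q : ℝ) ^ (1 - s) : ℝ) : ℂ) := by
      rw [show (1 - s) = 1 + (-s) by ring, Real.rpow_add hqpos, Real.rpow_one]
      push_cast
      ring
    rw [← hd, div_eq_mul_inv]
    unfold rayTerm
    exact ray_algebra _ _ _ _ _ _ _ _ _ _ _ _ (mul_inv_cancel₀ (hψJ C)) (mul_inv_cancel₀ hw0)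
      hJs hqs
  simp only [hE, hD]
  rw [Finset.sum_congr rfl fun C _ ↦ key C, Finset.sum_sub_distrib, ← Finset.mul_sum]
  have hre : ∑ C : ClassGroup (𝓞 K), classW ψ (C * (ClassGroup.mk0 I₀')⁻¹) s =
      ∑ C : ClassGroup (𝓞 K), classW ψ C s :=
    Fintype.sum_equiv (Equiv.mulRight (ClassGroup.mk0 I₀')⁻¹) _ _ fun _ ↦ rfl
  rw [hre, ← rayL_eq_sum_classW h hs1]
  ring

/-- **RAY-N1**, bounded form. -/
theorem exists_bound_rayL (h : IsRayWeight 𝔪 ψ) (I₀ : Ideal (𝓞 K)) (hI₀ : I₀ ≠ ⊥)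
    (h0 : ψ I₀ ≠ 0) (h1 : ψ I₀ ≠ 1) :
    ∃ B : ℝ, ∀ s : ℝ, 1 < s → s ≤ 2 → ‖rayL ψ s‖ ≤ B := by
  obtain ⟨F, hFc, hF⟩ := exists_continuousOn_rayL h I₀ hI₀ h0 h1
  obtain ⟨B, hB⟩ := isCompact_Icc.exists_bound_of_continuousOn hFc
  exact ⟨B, fun s hs1 hs2 ↦ by rw [← hF s hs1 hs2]; exact hB s ⟨hs1.le, hs2⟩⟩

end Fermat.Agent.Lib.RayL74
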