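import Fermat.Agent.Lib.RayL74.Weight

/-!
# `RayL74` (helper74): sums over elements, over principal ideals and over ideal classes
-/

set_option linter.unusedSectionVars false

namespace Fermat.Agent.Lib.RayL74

open NumberField NumberField.mixedEmbedding NumberField.Units Fermat.Agent.S14.H74
open scoped nonZeroDivisors Classical

variable {K : Type*} [Field K] [NumberField K] {𝔪 : Ideal (𝓞 K)} {ψ : Ideal (𝓞 K) → ℂ}

/-- The general term `ψ(I) N(I)^(-s)` of the `L`-series of `ψ`. -/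
noncomputable def rayTerm (ψ : Ideal (𝓞 K) → ℂ) (s : ℝ) (I : Ideal (𝓞 K)) : ℂ :=
  ψ I * (((Ideal.absNorm I : ℝ) ^ (-s) : ℝ) : ℂ)

/-- The `L`-series `∑_I ψ(I) N(I)^(-s)` over the nonzero ideals of `𝓞 K`, real argument. -/
noncomputable def rayL (ψ : Ideal (𝓞 K) → ℂ) (s : ℝ) : ℂ :=
  ∑' I : (Ideal (𝓞 K))⁰, rayTerm ψ s (I : Ideal (𝓞 K))

/-- The partial `L`-series of the ideal class `C`. -/
noncomputable def classW (ψ : Ideal (𝓞 K) → ℂ) (C : ClassGroup (𝓞 K)) (s : ℝ) : ℂ :=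
  ∑' I : {I : (Ideal (𝓞 K))⁰ // ClassGroup.mk0 I = C}, rayTerm ψ s (I.1 : Ideal (𝓞 K))

/-- The sum of `ψ(I) N(I)^(-s)` over the nonzero principal ideals contained in `A`. -/
noncomputable def prinW (ψ : Ideal (𝓞 K) → ℂ) (A : Ideal (𝓞 K)) (s : ℝ) : ℂ :=
  ∑' I : PJ A, rayTerm ψ s I.1

theorem norm_rayTerm_le (h : IsRayWeight 𝔪 ψ) (s : ℝ) {I : Ideal (𝓞 K)} (hI : I ≠ ⊥) :
    ‖rayTerm ψ s I‖ ≤ (Ideal.absNorm I : ℝ) ^ (-s) := by
  unfold rayTerm
  rw [norm_mul, Complex.norm_real, Real.norm_of_nonneg (Real.rpow_nonneg (Nat.cast_nonneg _) _)]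
  exact mul_le_of_le_one_left (Real.rpow_nonneg (Nat.cast_nonneg _) _) (h.norm_le I hI)

theorem summable_rayTerm (h : IsRayWeight 𝔪 ψ) {s : ℝ} (hs : 1 < s) :
    Summable fun I : (Ideal (𝓞 K))⁰ ↦ rayTerm ψ s (I : Ideal (𝓞 K)) :=
  Summable.of_norm_bounded (idealZeta_summable K hs) fun I ↦
    norm_rayTerm_le h s (nonZeroDivisors.coe_ne_zero I)

theorem rayTerm_mul (h : IsRayWeight 𝔪 ψ) (s : ℝ) {I J : Ideal (𝓞 K)} (hI : I ≠ ⊥)
    (hJ : J ≠ ⊥) : rayTerm ψ s (I * J) = rayTerm ψ s I * rayTerm ψ s J := by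
  unfold rayTerm
  rw [h.map_mul I J hI hJ, map_mul, Nat.cast_mul,
    Real.mul_rpow (Nat.cast_nonneg _) (Nat.cast_nonneg _), Complex.ofReal_mul]
  ring

/-- The `L`-series is the sum of the partial `L`-series of the ideal classes. -/
theorem rayL_eq_sum_classW (h : IsRayWeight 𝔪 ψ) {s : ℝ} (hs : 1 < s) :
    rayL ψ s = ∑ C : ClassGroup (𝓞 K), classW ψ C s := by
  have hsum := summable_rayTerm h hs
  set e := Equiv.sigmaFiberEquiv (fun I : (Ideal (𝓞 K))⁰ ↦ ClassGroup.mk0 I) with he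
  have hsum' : Summable (fun x : (Σ C : ClassGroup (𝓞 K),
      {I : (Ideal (𝓞 K))⁰ // ClassGroup.mk0 I = C}) ↦
        rayTerm ψ s ((e x : (Ideal (𝓞 K))⁰) : Ideal (𝓞 K))) :=
    e.summable_iff.mpr hsum
  unfold rayL
  rw [← e.tsum_eq (fun I : (Ideal (𝓞 K))⁰ ↦ rayTerm ψ s (I : Ideal (𝓞 K))), hsum'.tsum_sigma,
    tsum_fintype]
  rfl

/-- Ideals in the class `C` correspond to the principal ideals contained in `J`, where `J` is
in the class `C⁻¹`. -/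
theorem prinW_eq_mul_classW (h : IsRayWeight 𝔪 ψ) {C : ClassGroup (𝓞 K)}
    {J : (Ideal (𝓞 K))⁰} (hJ : ClassGroup.mk0 J = C⁻¹) (s : ℝ) :
    prinW ψ (J : Ideal (𝓞 K)) s = rayTerm ψ s (J : Ideal (𝓞 K)) * classW ψ C s := by
  unfold prinW classW
  rw [← (classEquiv hJ).tsum_eq, ← tsum_mul_left]
  refine tsum_congr fun I ↦ ?_
  rw [classEquiv_apply, rayTerm_mul h s (nonZeroDivisors.coe_ne_zero I.1)
    (nonZeroDivisors.coe_ne_zero J), mul_comm]

/-- **ORB**: the sum over elements is `torsionOrder` times the sum over principal ideals. -/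
theorem elemSumW_eq_torsionOrder_mul_prinW (h : IsRayWeight 𝔪 ψ) (J : Ideal (𝓞 K)) {s : ℝ}
    (hs : 1 < s) :
    elemSumW h.wt J s = (torsionOrder K : ℂ) * prinW ψ J s := by
  set T : 𝓞 K → ℂ := fun x ↦ h.wt x * ((FS K s x : ℝ) : ℂ) with hT
  have hT0 : T 0 = 0 := by simp [hT, FS_zero]
  have hsumT : Summable T := summable_wt_mul_FS h.wt_bd hs
  have h1 : elemSumW h.wt J s = ∑' x : J, T (x : 𝓞 K) := rfl
  rw [h1]
  have h2 : ∑' x : J, T (x : 𝓞 K) = ∑' y : {y : 𝓞 K // y ∈ J ∧ y ≠ 0}, T (y : 𝓞 K) := by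
    have e1 := tsum_subtype (J : Set (𝓞 K)) T
    have e2 := tsum_subtype ({y : 𝓞 K | y ∈ J ∧ y ≠ 0}) T
    have e3 : (J : Set (𝓞 K)).indicator T = ({y : 𝓞 K | y ∈ J ∧ y ≠ 0}).indicator T := by
      funext y
      by_cases hy : y = 0
      · subst hy
        simp [Set.indicator, hT0]
      · simp [Set.indicator, hy]
    calc ∑' x : J, T (x : 𝓞 K) = ∑' y, (J : Set (𝓞 K)).indicator T y := e1
      _ = ∑' y, ({y : 𝓞 K | y ∈ J ∧ y ≠ 0}).indicator T y := by rw [e3]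
      _ = _ := e2.symm
  rw [h2]
  have hsum0 : Summable fun y : {y : 𝓞 K // y ∈ J ∧ y ≠ 0} ↦ T (y : 𝓞 K) :=
    hsumT.comp_injective Subtype.val_injective
  set c : PJ J → ℂ := fun I ↦ rayTerm ψ s I.1 with hc
  set G : PJ J × (𝓞 K)ˣ → ℂ := fun p ↦
    c p.1 * ((rho K (p.2 • mixedEmbedding K (pjGen p.1 : K)) : ℝ) : ℂ) with hG
  have hcomp : (fun y : {y : 𝓞 K // y ∈ J ∧ y ≠ 0} ↦ T (y : 𝓞 K)) ∘ orbitEquiv J = G := by
    funext p
    simp only [Function.comp_apply, orbitEquiv_apply, hG, hT, hc]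
    rw [FS_unit_mul s p.2 p.1, h.wt_of_ne_zero (mul_ne_zero p.2.ne_zero (pjGen_ne_zero p.1)),
      span_unit_mul, span_pjGen]
    unfold rayTerm
    push_cast
    ring
  have hsumG : Summable G := by
    rw [← hcomp]
    exact (orbitEquiv J).summable_iff.mpr hsum0
  have hfib : ∀ I : PJ J, HasSum (fun u : (𝓞 K)ˣ ↦ G (I, u))
      (c I * (torsionOrder K : ℂ)) := by
    intro I
    have hN : mixedEmbedding.norm (mixedEmbedding K (pjGen I : K)) ≠ 0 := by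
      rw [norm_pjGen]
      have : Ideal.absNorm I.1 ≠ 0 := by
        rw [Ne, Ideal.absNorm_eq_zero_iff]
        exact I.2.1
      exact_mod_cast this
    have h := hasSum_rho_unit_smul hN
    have h' : HasSum (fun u : (𝓞 K)ˣ ↦
        ((rho K (u • mixedEmbedding K (pjGen I : K)) : ℝ) : ℂ)) (((torsionOrder K : ℝ)) : ℂ) :=
      Complex.hasSum_ofReal.mpr h
    have h'' := h'.mul_left (c I)
    simpa [hG] using h''
  calc ∑' y : {y : 𝓞 K // y ∈ J ∧ y ≠ 0}, T (y : 𝓞 K)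
      = ∑' p : PJ J × (𝓞 K)ˣ, G p := by
        rw [← hcomp]
        exact ((orbitEquiv J).tsum_eq _).symm
    _ = ∑' I : PJ J, ∑' u : (𝓞 K)ˣ, G (I, u) := hsumG.tsum_prod' fun I ↦ (hfib I).summable
    _ = ∑' I : PJ J, c I * (torsionOrder K : ℂ) := tsum_congr fun I ↦ (hfib I).tsum_eq
    _ = (∑' I : PJ J, c I) * (torsionOrder K : ℂ) := tsum_mul_right
    _ = _ := by rw [mul_comm]; rfl

end Fermat.Agent.Lib.RayL74
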