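import Fermat.Agent.Lib.RayL74.Key
import Fermat.Agent.S14.H74.ClassSum

/-!
# `RayL74` (helper74): ray class weights

A function `ψ` on the ideals of `𝓞 K` is a *ray weight modulo `𝔪`* if it is completely
multiplicative, bounded by `1`, nonzero exactly on the ideals coprime to `𝔪`, and trivial on the
principal ideals generated by the elements `x ≡ 1 mod 𝔪`.  (All conditions are only required for
nonzero ideals.)  The function `x ↦ ψ((x))` on `𝓞 K` is then periodic modulo `𝔪`.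
-/

set_option linter.unusedSectionVars false

namespace Fermat.Agent.Lib.RayL74

open NumberField Fermat.Agent.S14.H74
open scoped nonZeroDivisors Classical

variable {K : Type*} [Field K] [NumberField K]

/-- Ray weights modulo `𝔪` (for instance `χ ∘ φ`, extended by zero, for a character `χ` of a
generalised ideal class group `φ : I^𝔪 → G` modulo `𝔪`). -/
structure IsRayWeight (𝔪 : Ideal (𝓞 K)) (ψ : Ideal (𝓞 K) → ℂ) : Prop where
  ne_bot : 𝔪 ≠ ⊥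
  map_mul : ∀ I J : Ideal (𝓞 K), I ≠ ⊥ → J ≠ ⊥ → ψ (I * J) = ψ I * ψ J
  norm_le : ∀ I : Ideal (𝓞 K), I ≠ ⊥ → ‖ψ I‖ ≤ 1
  ne_zero_iff : ∀ I : Ideal (𝓞 K), I ≠ ⊥ → (ψ I ≠ 0 ↔ I ⊔ 𝔪 = ⊤)
  ray : ∀ x : 𝓞 K, x ≠ 0 → x - 1 ∈ 𝔪 → ψ (Ideal.span {x}) = 1

namespace IsRayWeight

variable {𝔪 : Ideal (𝓞 K)} {ψ : Ideal (𝓞 K) → ℂ}

theorem span_ne_bot {x : 𝓞 K} (hx : x ≠ 0) : Ideal.span {x} ≠ ⊥ := by
  rwa [Ne, Ideal.span_singleton_eq_bot]

theorem span_sup_eq_top_of_sub_mem {x y : 𝓞 K} (h : x - y ∈ 𝔪)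
    (hx : Ideal.span {x} ⊔ 𝔪 = ⊤) : Ideal.span {y} ⊔ 𝔪 = ⊤ := by
  rw [eq_top_iff, ← hx]
  refine sup_le ?_ le_sup_right
  rw [Ideal.span_singleton_le_iff_mem]
  have e : x = y + (x - y) := by ring
  rw [e]
  exact Submodule.add_mem_sup (Ideal.mem_span_singleton_self y) h

/-- `x ↦ ψ((x))` is periodic modulo `𝔪` on the nonzero elements. -/
theorem span_eq_of_sub_mem (h : IsRayWeight 𝔪 ψ) {x y : 𝓞 K} (hx : x ≠ 0) (hy : y ≠ 0)
    (hxy : x - y ∈ 𝔪) : ψ (Ideal.span {x}) = ψ (Ideal.span {y}) := by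
  by_cases hc : Ideal.span {x} ⊔ 𝔪 = ⊤
  · have hcy : Ideal.span {y} ⊔ 𝔪 = ⊤ := span_sup_eq_top_of_sub_mem hxy hc
    -- an inverse of `x` modulo `𝔪`
    have hz : ∃ z : 𝓞 K, z ≠ 0 ∧ z * x - 1 ∈ 𝔪 := by
      have h1 : (1 : 𝓞 K) ∈ Ideal.span {x} ⊔ 𝔪 := by rw [hc]; trivial
      obtain ⟨a, ha, b, hb, hab⟩ := Submodule.mem_sup.mp h1
      obtain ⟨z, rfl⟩ := Ideal.mem_span_singleton'.mp ha
      by_cases hz0 : z = 0
      · subst hz0
        rw [zero_mul, zero_add] at hab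
        have htop : 𝔪 = ⊤ := by
          rw [Ideal.eq_top_iff_one, ← hab]
          exact hb
        exact ⟨1, one_ne_zero, by rw [htop]; trivial⟩
      · refine ⟨z, hz0, ?_⟩
        have e : z * x - 1 = -b := by rw [← hab]; ring
        rw [e]
        exact 𝔪.neg_mem hb
    obtain ⟨z, hz0, hzx⟩ := hz
    have hzy : z * y - 1 ∈ 𝔪 := by
      have e : z * y - 1 = (z * x - 1) - z * (x - y) := by ring
      rw [e]
      exact 𝔪.sub_mem hzx (𝔪.mul_mem_left z hxy)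
    have e1 := h.ray (z * x) (mul_ne_zero hz0 hx) hzx
    have e2 := h.ray (z * y) (mul_ne_zero hz0 hy) hzy
    rw [← Ideal.span_singleton_mul_span_singleton,
      h.map_mul _ _ (span_ne_bot hz0) (span_ne_bot hx)] at e1
    rw [← Ideal.span_singleton_mul_span_singleton,
      h.map_mul _ _ (span_ne_bot hz0) (span_ne_bot hy)] at e2
    have hz1 : ψ (Ideal.span {z}) ≠ 0 := by
      intro h0
      rw [h0, zero_mul] at e1
      exact zero_ne_one e1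
    exact mul_left_cancel₀ hz1 (e1.trans e2.symm)
  · have hcy : ¬ Ideal.span {y} ⊔ 𝔪 = ⊤ := fun hcy ↦
      hc (span_sup_eq_top_of_sub_mem (by
        have e : y - x = -(x - y) := by ring
        rw [e]
        exact 𝔪.neg_mem hxy) hcy)
    have e1 : ψ (Ideal.span {x}) = 0 := by
      by_contra h0
      exact hc ((h.ne_zero_iff _ (span_ne_bot hx)).mp h0)
    have e2 : ψ (Ideal.span {y}) = 0 := by
      by_contra h0
      exact hcy ((h.ne_zero_iff _ (span_ne_bot hy)).mp h0)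
    rw [e1, e2]

/-- A nonzero element of `𝔪`. -/
noncomputable def elt (h : IsRayWeight 𝔪 ψ) : 𝓞 K :=
  (Submodule.exists_mem_ne_zero_of_ne_bot h.ne_bot).choose

theorem elt_mem (h : IsRayWeight 𝔪 ψ) : h.elt ∈ 𝔪 :=
  (Submodule.exists_mem_ne_zero_of_ne_bot h.ne_bot).choose_spec.1

theorem elt_ne_zero (h : IsRayWeight 𝔪 ψ) : h.elt ≠ 0 :=
  (Submodule.exists_mem_ne_zero_of_ne_bot h.ne_bot).choose_spec.2

/-- A nonzero representative of the class of `x` modulo `𝔪`. -/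
noncomputable def nzRep (h : IsRayWeight 𝔪 ψ) (x : 𝓞 K) : 𝓞 K :=
  if x = 0 then h.elt else x

theorem nzRep_ne_zero (h : IsRayWeight 𝔪 ψ) (x : 𝓞 K) : h.nzRep x ≠ 0 := by
  unfold nzRep
  split_ifs with hx
  · exact h.elt_ne_zero
  · exact hx

theorem nzRep_sub_mem (h : IsRayWeight 𝔪 ψ) (x : 𝓞 K) : h.nzRep x - x ∈ 𝔪 := by
  unfold nzRep
  split_ifs with hx
  · rw [hx, sub_zero]
    exact h.elt_mem
  · rw [sub_self]
    exact 𝔪.zero_mem

theorem nzRep_of_ne_zero (h : IsRayWeight 𝔪 ψ) {x : 𝓞 K} (hx : x ≠ 0) : h.nzRep x = x :=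
  if_neg hx

/-- The weight `x ↦ ψ((x))` on `𝓞 K` (with the value at `0` adjusted so that it is periodic). -/
noncomputable def wt (h : IsRayWeight 𝔪 ψ) (x : 𝓞 K) : ℂ :=
  ψ (Ideal.span {h.nzRep x})

theorem wt_of_ne_zero (h : IsRayWeight 𝔪 ψ) {x : 𝓞 K} (hx : x ≠ 0) :
    h.wt x = ψ (Ideal.span {x}) := by
  unfold wt
  rw [h.nzRep_of_ne_zero hx]

theorem wt_per (h : IsRayWeight 𝔪 ψ) (x x' : 𝓞 K) (hxx' : x - x' ∈ 𝔪) : h.wt x = h.wt x' := by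
  unfold wt
  refine h.span_eq_of_sub_mem (h.nzRep_ne_zero x) (h.nzRep_ne_zero x') ?_
  have e : h.nzRep x - h.nzRep x' = (h.nzRep x - x) + (x - x') - (h.nzRep x' - x') := by ring
  rw [e]
  exact 𝔪.sub_mem (𝔪.add_mem (h.nzRep_sub_mem x) hxx') (h.nzRep_sub_mem x')

theorem wt_bd (h : IsRayWeight 𝔪 ψ) (x : 𝓞 K) : ‖h.wt x‖ ≤ 1 :=
  h.norm_le _ (span_ne_bot (h.nzRep_ne_zero x))

theorem ne_zero_of_sup_eq_top (h : IsRayWeight 𝔪 ψ) {I : Ideal (𝓞 K)} (hI : I ≠ ⊥)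
    (hc : I ⊔ 𝔪 = ⊤) : ψ I ≠ 0 :=
  (h.ne_zero_iff I hI).mpr hc

theorem sup_eq_top_of_ne_zero (h : IsRayWeight 𝔪 ψ) {I : Ideal (𝓞 K)} (hI : I ≠ ⊥)
    (hc : ψ I ≠ 0) : I ⊔ 𝔪 = ⊤ :=
  (h.ne_zero_iff I hI).mp hc

theorem map_top (h : IsRayWeight 𝔪 ψ) : ψ ⊤ = 1 := by
  have := h.ray 1 one_ne_zero (by rw [sub_self]; exact 𝔪.zero_mem)
  rwa [Ideal.span_singleton_one] at this

end IsRayWeight

end Fermat.Agent.Lib.RayL74
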